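/-
S17 (weak Mordell-Weil), piece (UNR) (helper5): division points are unramified outside `N m`.

`KeyLemmaAt N`, `ℓ ∤ N m`, `A` a place of `ℚ̄` over `ℓ`, `τ` in the inertia group of `A`,
`y ∈ J₀(N)(ℚ̄)` with `τ (m y) = m y` (e.g. `m y` rational)  ⟹  `τ y = y`.

Proof: `τ y - y` is an `m`-torsion class in `(τ - 1) J`; by helper7's boundedness theorem
(`S37.principal_of_mem_closure`) and the KEY LEMMA it vanishes.
-/
import Mathlib
import Fermat.Agent.S37.Final

set_option autoImplicit false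
set_option linter.style.haveILetI false
set_option linter.unusedSectionVars false
set_option synthInstance.maxHeartbeats 400000

noncomputable section

namespace Fermat.Agent.S17

open ModularCurve AlgebraicCurve HahnSeries Fermat.Agent.F3 Fermat.Agent.F3G
  Fermat.Agent.GaussInt Fermat.Agent.RR Fermat.Agent.S37

local notation "Qb" => AlgebraicClosure ℚ

variable {N : ℕ} [NeZero N]

/-- the set of divisor-level maps `τ - 1`, `τ` in the inertia group of `A`. -/
def inertiaMapSet (N : ℕ) [NeZero N] (A : ValuationSubring Qb) :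
    Set (Divisor Qb (FBar N) →+ Divisor Qb (FBar N)) :=
  {Λ | ∃ τ ∈ A.inertiaSubgroupIn ℚ, Λ = inertiaMap N τ}

/-- **(UNR)**: the inertia group at a place over `ℓ ∤ N m` acts trivially on the `m`-division
points of the classes it fixes. -/
theorem inertia_smul_eq_of_nsmul (hKL : KeyLemmaAt N) (m ℓ : ℕ) (hm : m ≠ 0) (hℓ : ℓ.Prime)
    (hℓm : ¬ ℓ ∣ N * m) (A : ValuationSubring Qb) (hA : A.LiesOverPrime ℓ)
    (τ : GQ) (hτ : τ ∈ A.inertiaSubgroupIn ℚ) (y : JZero N)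
    (hy : τ • (m • y) = m • y) : τ • y = y := by
  haveI : IsAlgClosed (IsLocalRing.ResidueField A) :=
    Fermat.Agent.FrobTrace.isAlgClosed_residueField A
  obtain ⟨⟨Y, hY⟩, rfl⟩ := Pic0.mk_surjective y
  have hY0 : Divisor.degree Y = 0 := hY
  set D : Divisor Qb (FBar N) := inertiaMap N τ Y with hD
  have hDdeg : Divisor.degree D = 0 := degree_inertiaMap τ Y hY0
  have hDc : D ∈ AddSubgroup.closure (genDiv (inertiaMapSet N A)) :=
    AddSubgroup.subset_closure ⟨_, ⟨τ, hτ, rfl⟩, Y, hY0, rfl⟩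
  have hcls : cls D hDdeg =
      τ • Pic0.mk (⟨Y, hY⟩ : Divisor.degZero) - Pic0.mk (⟨Y, hY⟩ : Divisor.degZero) := rfl
  -- `m • D` is principal
  have hmdeg : Divisor.degree (m • D) = 0 := by rw [map_nsmul, hDdeg, smul_zero]
  have hmcls : cls (m • D) hmdeg = 0 := by
    have h1 : τ • (m • Pic0.mk (⟨Y, hY⟩ : Divisor.degZero)) =
        m • (τ • Pic0.mk (⟨Y, hY⟩ : Divisor.degZero)) :=
      map_nsmul (DistribSMul.toAddMonoidHom (JZero N) τ) m _
    rw [cls_nsmul m D hDdeg hmdeg, hcls, nsmul_sub, ← h1, hy, sub_self]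
  obtain ⟨f, hf, hmD⟩ := exists_divOf_of_cls_eq_zero (m • D) hmdeg hmcls
  set S := modGData A ℓ N hℓ hA with hS
  have hKL' : ∀ w : FBar N, S.red w = 1 → (∀ P : Place Qb (FBar N), (m : ℤ) ∣ P.ord w) →
      ∃ h : FBar N, h ^ m = w := by
    intro w hw hdvd
    obtain ⟨hwmem, hwres⟩ := (modGData_red_eq_one_iff A ℓ N hℓ hA w).mp hw
    have hw0 : w ≠ 0 := S.ne_zero_of_red_ne_zero (by rw [hw]; exact one_ne_zero)
    exact hKL m ℓ hℓ hℓm A hA w hw0 hdvd hwmem hwres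
  obtain ⟨h, hh0, hDh⟩ := principal_of_mem_closure S (inertiaMapSet N A)
    (fun Λ hΛ => by
      obtain ⟨τ', hτ', rfl⟩ := hΛ
      exact isGoodMap_inertiaMap A ℓ hℓ hA τ' hτ') m hm hKL' hDc hf hmD
  have h0 : cls D hDdeg = 0 := cls_eq_zero_of_eq_divOf D hDdeg hh0 hDh
  rw [hcls, sub_eq_zero] at h0
  exact h0

/-- (UNR) for rational classes: if `m y` is fixed by `G_ℚ`, the inertia groups at the places
over `ℓ ∤ N m` fix `y`. -/
theorem inertia_smul_eq_of_nsmul_fixed (hKL : KeyLemmaAt N) (m : ℕ) (hm : m ≠ 0) (y : JZero N)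
    (hy : ∀ σ : GQ, σ • (m • y) = m • y) (ℓ : ℕ) (hℓ : ℓ.Prime) (hℓm : ¬ ℓ ∣ N * m)
    (A : ValuationSubring Qb) (hA : A.LiesOverPrime ℓ)
    (τ : GQ) (hτ : τ ∈ A.inertiaSubgroupIn ℚ) : τ • y = y :=
  inertia_smul_eq_of_nsmul hKL m ℓ hm hℓ hℓm A hA τ hτ y (hy τ)

end Fermat.Agent.S17
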