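/-
S17 / package W (weak Mordell-Weil), piece (HALF) (helper70).

ONE number field `F` such that `Gal(ℚ̄/F)` fixes every `y ∈ J₀(N)(ℚ̄)` with `2 y` rational.

`H` := pointwise stabiliser of `J[2]` (open: `J[2]` is finite and torsion points have open
stabilisers).  For `y` with `2 y` rational, `N_y := H ∩ Stab(y)` is an open subgroup of `H`
containing the commutators and the squares of `H` (`σ ↦ σ y - y` is a homomorphism `H → J[2]`)
and all inertia groups at the primes `ℓ ∤ 2N` (helper5's (UNR), from the KEY LEMMA).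
helper29's `kfin` (Kummer theory) gives `F`.
-/
import Mathlib
import Fermat.Agent.S17.W.OpenStab
import Fermat.Agent.S17.W.Unram
import Fermat.Agent.S17.WeakMW.Abstract
import Fermat.Agent.Lib.KFin.Main
import Fermat.Agent.F3.TorsFin.Final

set_option autoImplicit false

noncomputable section

namespace Fermat.Agent.S17W

open ModularCurve AlgebraicCurve

local notation "Qb" => AlgebraicClosure ℚ
local notation "GQ" => (AlgebraicClosure ℚ ≃ₐ[ℚ] AlgebraicClosure ℚ)

variable (N : ℕ) [NeZero N]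

/-- The pointwise stabiliser of the `2`-torsion of `J₀(N)(ℚ̄)`. -/
def stabTwo : Subgroup GQ where
  carrier := {σ | ∀ t : JZero N, (2 : ℕ) • t = 0 → σ • t = t}
  one_mem' := fun t _ => one_smul _ t
  mul_mem' := by
    intro σ τ hσ hτ t ht
    rw [mul_smul, hτ t ht, hσ t ht]
  inv_mem' := by
    intro σ hσ t ht
    rw [inv_smul_eq_iff, hσ t ht]

theorem mem_stabTwo {σ : GQ} :
    σ ∈ stabTwo N ↔ ∀ t : JZero N, (2 : ℕ) • t = 0 → σ • t = t := Iff.rfl

/-- finitely many torsion points are fixed by a common open subgroup. -/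
theorem exists_field_fixing_finite (s : Set (JZero N)) (hs : s.Finite)
    (htors : ∀ t ∈ s, (2 : ℕ) • t = 0) :
    ∃ L : IntermediateField ℚ Qb, FiniteDimensional ℚ L ∧
      ∀ σ : GQ, (∀ a ∈ L, σ a = a) → ∀ t ∈ s, σ • t = t := by
  induction s, hs using Set.Finite.induction_on with
  | empty => exact ⟨⊥, inferInstance, fun _ _ t ht => absurd ht (Set.notMem_empty t)⟩
  | @insert t s _ _ ih =>
    obtain ⟨L₁, hL₁, h₁⟩ := ih fun u hu => htors u (Set.mem_insert_of_mem t hu)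
    obtain ⟨L₂, hL₂, h₂⟩ := Fermat.Agent.F3.torsionOpenStab N 2 two_pos t
      (htors t (Set.mem_insert t s))
    refine ⟨L₁ ⊔ L₂, IntermediateField.finiteDimensional_sup L₁ L₂, fun σ hσ u hu => ?_⟩
    rcases Set.mem_insert_iff.mp hu with rfl | hu
    · exact h₂ σ fun a ha => hσ a ((le_sup_right : L₂ ≤ L₁ ⊔ L₂) ha)
    · exact h₁ σ (fun a ha => hσ a ((le_sup_left : L₁ ≤ L₁ ⊔ L₂) ha)) u hu

/-- `stabTwo N` is open. -/
theorem stabTwo_open :
    ∃ L₀ : IntermediateField ℚ Qb, FiniteDimensional ℚ L₀ ∧ L₀.fixingSubgroup ≤ stabTwo N := by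
  obtain ⟨L, hL, h⟩ := exists_field_fixing_finite N {t : JZero N | (2 : ℕ) • t = 0}
    (Fermat.Agent.F3TF.torsionFinite N 2 two_pos) (fun t ht => ht)
  refine ⟨L, hL, fun σ hσ t ht => ?_⟩
  exact h σ (fun a ha => (IntermediateField.mem_fixingSubgroup_iff L σ).mp hσ a ha) t ht

variable {N}

omit [NeZero N] in
open Fermat.Agent.S17 in
/-- For `σ` in the stabiliser of `J[2]`, the Kummer function of a half of a rational point is
additive in the second variable. -/
theorem kummerFun_mul_of_mem {y : JZero N} (hy : ∀ σ : GQ, σ • ((2 : ℕ) • y) = (2 : ℕ) • y)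
    {σ : GQ} (hσ : σ ∈ stabTwo N) (τ : GQ) :
    kummerFun y (σ * τ) = kummerFun y τ + kummerFun y σ := by
  rw [kummerFun_mul, hσ _ (nsmul_kummerFun 2 y τ (hy τ))]

omit [NeZero N] in
open Fermat.Agent.S17 in
theorem kummerFun_inv_of_mem {y : JZero N} (hy : ∀ σ : GQ, σ • ((2 : ℕ) • y) = (2 : ℕ) • y)
    {σ : GQ} (hσ : σ ∈ stabTwo N) :
    kummerFun y σ⁻¹ = -kummerFun y σ := by
  have h1 : kummerFun y (σ * σ⁻¹) = kummerFun y σ⁻¹ + kummerFun y σ :=
    kummerFun_mul_of_mem hy hσ σ⁻¹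
  have h0 : kummerFun y (σ * σ⁻¹) = 0 := by
    rw [mul_inv_cancel]
    simp [kummerFun]
  rw [h0] at h1
  exact eq_neg_of_add_eq_zero_left h1.symm

open Fermat.Agent.S17 in
/-- **(HALF)** One number field over which all halves of rational points are defined. -/
theorem exists_half_field (hKL : Fermat.Agent.GaussInt.KeyLemmaAt N) :
    ∃ F : IntermediateField ℚ Qb, FiniteDimensional ℚ F ∧
      ∀ y : JZero N, (∀ σ : GQ, σ • ((2 : ℕ) • y) = (2 : ℕ) • y) →
        ∀ σ ∈ F.fixingSubgroup, σ • y = y := by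
  classical
  obtain ⟨F, hF, -, hkey⟩ := Fermat.Agent.KFin.kfin 2 Nat.prime_two (N * 2).primeFactors
    (stabTwo N) (stabTwo_open N)
  refine ⟨F, hF, fun y hy σ hσ => ?_⟩
  -- the subgroup `N_y`
  set Ny : Subgroup GQ := stabTwo N ⊓ MulAction.stabilizer GQ y with hNy
  have hfix : ∀ τ : GQ, τ ∈ MulAction.stabilizer GQ y ↔ kummerFun y τ = 0 := by
    intro τ
    rw [MulAction.mem_stabilizer_iff, kummerFun, sub_eq_zero]
  have hle : F.fixingSubgroup ≤ Ny := by
    apply hkey Ny inf_le_left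
    · -- open
      obtain ⟨L₀, hL₀, hL₀H⟩ := stabTwo_open N
      obtain ⟨L₁, hL₁, hL₁y⟩ := openStab N y
      refine ⟨L₀ ⊔ L₁, IntermediateField.finiteDimensional_sup L₀ L₁, fun τ hτ => ?_⟩
      have hτ' := (IntermediateField.mem_fixingSubgroup_iff _ τ).mp hτ
      refine ⟨hL₀H ((IntermediateField.mem_fixingSubgroup_iff _ τ).mpr
        fun a ha => hτ' a ((le_sup_left : L₀ ≤ L₀ ⊔ L₁) ha)), ?_⟩
      exact hL₁y τ fun a ha => hτ' a ((le_sup_right : L₁ ≤ L₀ ⊔ L₁) ha)
    · -- commutators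
      intro σ₁ hσ₁ τ₁ hτ₁
      have hσi : σ₁⁻¹ ∈ stabTwo N := (stabTwo N).inv_mem hσ₁
      have hτi : τ₁⁻¹ ∈ stabTwo N := (stabTwo N).inv_mem hτ₁
      refine ⟨(stabTwo N).mul_mem ((stabTwo N).mul_mem ((stabTwo N).mul_mem hσ₁ hτ₁) hσi) hτi,
        (hfix _).mpr ?_⟩
      rw [mul_assoc, mul_assoc, kummerFun_mul_of_mem hy hσ₁,
        kummerFun_mul_of_mem hy hτ₁, kummerFun_mul_of_mem hy hσi,
        kummerFun_inv_of_mem hy hσ₁, kummerFun_inv_of_mem hy hτ₁]
      abel
    · -- squares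
      intro σ₁ hσ₁
      refine ⟨(stabTwo N).pow_mem hσ₁ 2, (hfix _).mpr ?_⟩
      rw [pow_two, kummerFun_mul_of_mem hy hσ₁, ← two_nsmul]
      exact nsmul_kummerFun 2 y σ₁ (hy σ₁)
    · -- inertia outside `2 N`
      intro q hq hqS A hA τ hτ
      have hqN : ¬ q ∣ N * 2 := by
        intro hdvd
        apply hqS
        rw [Nat.mem_primeFactors]
        exact ⟨hq, hdvd, mul_ne_zero (NeZero.ne N) two_ne_zero⟩
      refine ⟨fun t ht => ?_, MulAction.mem_stabilizer_iff.mpr ?_⟩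
      · refine inertia_smul_eq_of_nsmul hKL 2 q two_ne_zero hq hqN A hA τ hτ t ?_
        rw [ht]
        exact map_zero (DistribSMul.toAddMonoidHom (JZero N) τ)
      · exact inertia_smul_eq_of_nsmul hKL 2 q two_ne_zero hq hqN A hA τ hτ y (hy τ)
  exact MulAction.mem_stabilizer_iff.mp (hle hσ).2

end Fermat.Agent.S17W
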