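/-
S17 / package W (helper70): WEAK MORDELL-WEIL for `J₀(N)`, modulo

* (DIV)  `S17.JZeroTwoDivisible N`      (package DIV), and
* the KEY LEMMA `GaussInt.KeyLemmaAt N` (cluster B, good reduction).

Assembly of helper65's abstract counting argument, helper29's Kummer finiteness `kfin`,
helper5's (UNR) and the finiteness / open stabilisers of torsion (cluster A).
-/
import Mathlib
import Fermat.Agent.S17.W.Half

set_option autoImplicit false

noncomputable section

namespace Fermat.Agent.S17W

open ModularCurve AlgebraicCurve Fermat.Agent.S17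

local notation "Qb" => AlgebraicClosure ℚ
local notation "GQ" => (AlgebraicClosure ℚ ≃ₐ[ℚ] AlgebraicClosure ℚ)

/-- **Weak Mordell-Weil** for `J₀(N)`: `J₀(N)(ℚ) / 2 J₀(N)(ℚ)` is finite, given divisibility of
`J₀(N)(ℚ̄)` by `2` and the KEY LEMMA of the good-reduction theory. -/
theorem weakMW_of (N : ℕ) [NeZero N] (hDiv : JZeroTwoDivisible N)
    (hKL : Fermat.Agent.GaussInt.KeyLemmaAt N) : WeakMW N := by
  obtain ⟨F, hF, hhalf⟩ := exists_half_field hKL
  have : F.fixingSubgroup.FiniteIndex := Fermat.Agent.KFin.kf_finiteIndex_fixingSubgroup F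
  refine finiteIndex_nsmul_fixedPoints (Γ := GQ) (J := JZero N) 2 hDiv
    (Fermat.Agent.F3TF.torsionFinite N 2 two_pos) F.fixingSubgroup {fun _ => 0}
    (Set.finite_singleton _) fun y hy => ?_
  rw [Set.mem_singleton_iff]
  funext τ
  rw [kummerFun, sub_eq_zero]
  exact hhalf y hy τ τ.2

end Fermat.Agent.S17W
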