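/-
S17 / package W (helper70): WEAK MORDELL-WEIL for `J₀(N)`, UNCONDITIONAL form.

`weakMW N : S17.WeakMW N` = `weakMW_of` + package DIV (`Div.jZeroTwoDivisible`, helper38)
+ the KEY LEMMA at all levels (`GaussInt.keyLemmaAt_all`, helper79).
-/
import Fermat.Agent.S17.W.Main
import Fermat.Agent.Lib.Div.Inst
import Fermat.Agent.Lib.GaussInt.KeyAux

set_option autoImplicit false

noncomputable section

namespace Fermat.Agent.S17W

/-- **Weak Mordell-Weil** for `J₀(N)`: `J₀(N)(ℚ) / 2 J₀(N)(ℚ)` is finite. -/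
theorem weakMW (N : ℕ) [NeZero N] : Fermat.Agent.S17.WeakMW N :=
  weakMW_of N (Fermat.Agent.Div.jZeroTwoDivisible N) (Fermat.Agent.GaussInt.keyLemmaAt_all N)

end Fermat.Agent.S17W
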